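import Fermat.Agent.NEW.Normalize
import Fermat.Prelude.Def_FreyPackage_LevelRaising

set_option autoImplicit false

/-!
# S41 / T8c (A), (C) : normalisation of a common eigenvector of the full Hecke algebra, the space `Vnew`
-/

namespace Fermat.Agent.S41.Norm

open CongruenceSubgroup ModularFormClass
open Fermat.Agent.S49 Fermat.Agent.NEW

/-- **(A)** a common eigenvector of the full Hecke algebra can be normalised; its `q`-coefficients at
the primes are the eigenvalues. -/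
theorem exists_normalized_of_character (M : ℕ) [NeZero M] (v : CuspForm (Gamma0 M) 2) (hv0 : v ≠ 0)
    (χ : TT M →+* ℂ) (hχ : ∀ t, phi M t v = χ t • v) :
    ∃ (c : ℂ) (g : CuspForm (Gamma0 M) 2), c ≠ 0 ∧ g = c • v ∧ g.IsNormalizedEigenform ∧
      (∀ (ℓ : ℕ) (hℓ : ℓ.Prime) (h : ¬ ℓ ∣ M),
        qCoeff g ℓ = χ (CuspForm.heckeAlgebra.T hℓ h (Set.notMem_empty ℓ))) ∧
      (∀ (ℓ : ℕ) (hℓ : ℓ.Prime) (h : ℓ ∣ M),
        qCoeff g ℓ = χ (CuspForm.heckeAlgebra.U hℓ h (Set.notMem_empty ℓ))) := by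
  have hT : ∀ (ℓ : ℕ) (hℓ : ℓ.Prime) (hℓN : ¬ ℓ ∣ M) (n : ℕ),
      qCoeff v (ℓ * n) + (ℓ : ℂ) * (if ℓ ∣ n then qCoeff v (n / ℓ) else 0) =
        χ (CuspForm.heckeAlgebra.T hℓ hℓN (Set.notMem_empty ℓ)) * qCoeff v n := by
    intro ℓ hℓ hℓN n
    rw [← qCoeff_heckeTLin hℓ hℓN, ← qCoeff_smul', ← hχ]
    rfl
  have hUU : ∀ (ℓ : ℕ) (hℓ : ℓ.Prime) (hℓN : ℓ ∣ M) (n : ℕ),
      qCoeff v (ℓ * n) =
        χ (CuspForm.heckeAlgebra.U hℓ hℓN (Set.notMem_empty ℓ)) * qCoeff v n := by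
    intro ℓ hℓ hℓN n
    rw [← qCoeff_heckeULin hℓ hℓN, ← qCoeff_smul', ← hχ]
    rfl
  let e : ℕ → ℂ := fun ℓ => if ℓ ∣ M then 0 else (ℓ : ℂ)
  have hrec : ∀ ℓ : ℕ, ℓ.Prime → ∃ lam : ℂ, ∀ n : ℕ,
      qCoeff v (ℓ * n) + e ℓ * (if ℓ ∣ n then qCoeff v (n / ℓ) else 0) = lam * qCoeff v n := by
    intro ℓ hℓ
    by_cases hℓN : ℓ ∣ M
    · refine ⟨χ (CuspForm.heckeAlgebra.U hℓ hℓN (Set.notMem_empty ℓ)), fun n => ?_⟩
      simp only [e, if_pos hℓN, zero_mul, add_zero]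
      exact hUU ℓ hℓ hℓN n
    · refine ⟨χ (CuspForm.heckeAlgebra.T hℓ hℓN (Set.notMem_empty ℓ)), fun n => ?_⟩
      simp only [e, if_neg hℓN]
      exact hT ℓ hℓ hℓN n
  have hc1 : qCoeff v 1 ≠ 0 := by
    intro h1
    apply hv0
    apply eq_zero_of_qCoeff
    intro n
    rcases Nat.eq_zero_or_pos n with rfl | hn
    · exact qCoeff_zero_index v
    · exact coeff_eq_zero_of_one_eq_zero hrec h1 n hn
  have hsys := normalized_eigensystem hrec hc1
  let f' : CuspForm (Gamma0 M) 2 := (qCoeff v 1)⁻¹ • v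
  have hfc : ∀ n, qCoeff f' n = (qCoeff v 1)⁻¹ * qCoeff v n := fun n => qCoeff_smul' _ _ _
  have hnorm : f'.IsNormalizedEigenform := by
    refine ⟨?_, ?_, ?_, ?_⟩
    · rw [hfc]; exact hsys.1
    · intro m n hmn
      rw [hfc, hfc, hfc]
      exact eigensystem_mul_of_coprime hsys m n hmn
    · intro p r hp hpN
      rw [hfc, hfc, hfc, hfc]
      have := eigensystem_prime_pow hsys p r hp
      simp only [e, if_neg hpN] at this
      exact this
    · intro p r hp hpN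
      rw [hfc, hfc, hfc]
      have := eigensystem_prime_pow hsys p r hp
      simp only [e, if_pos hpN, zero_mul, sub_zero] at this
      exact this
  refine ⟨(qCoeff v 1)⁻¹, f', inv_ne_zero hc1, rfl, hnorm, ?_, ?_⟩
  · intro ℓ hℓ hℓN
    rw [hfc]
    have h1 := hT ℓ hℓ hℓN 1
    have hnd : ¬ ℓ ∣ 1 := fun hd => hℓ.one_lt.ne' (Nat.dvd_one.mp hd)
    rw [if_neg hnd, mul_zero, add_zero, mul_one] at h1
    rw [h1]
    field_simp
  · intro ℓ hℓ hℓN
    rw [hfc]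
    have h1 := hUU ℓ hℓ hℓN 1
    rw [mul_one] at h1
    rw [h1]
    field_simp

/-- **(C)** `ker (U_q ^ 2 - 1)`. -/
noncomputable def Vnew (M q : ℕ) [NeZero M] (hqM : q ∣ M) : Submodule ℂ (CuspForm (Gamma0 M) 2) :=
  LinearMap.ker (CuspForm.heckeULin 2 hqM * CuspForm.heckeULin 2 hqM - 1)

theorem mem_Vnew {M q : ℕ} [NeZero M] {hqM : q ∣ M} {v : CuspForm (Gamma0 M) 2} :
    v ∈ Vnew M q hqM ↔ CuspForm.heckeULin 2 hqM (CuspForm.heckeULin 2 hqM v) = v := by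
  unfold Vnew
  rw [LinearMap.mem_ker, LinearMap.sub_apply, Module.End.mul_apply, Module.End.one_apply,
    sub_eq_zero]

theorem Vnew_stable {M q : ℕ} [NeZero M] (hq : q.Prime) (hqM : q ∣ M) (t : TT M)
    (v : CuspForm (Gamma0 M) 2) (hv : v ∈ Vnew M q hqM) : phi M t v ∈ Vnew M q hqM := by
  rw [mem_Vnew] at hv ⊢
  have e : CuspForm.heckeULin 2 hqM =
      phi M (CuspForm.heckeAlgebra.U hq hqM (Set.notMem_empty q)) := rfl
  have hcomm : ∀ w, CuspForm.heckeULin 2 hqM (phi M t w) = phi M t (CuspForm.heckeULin 2 hqM w) := by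
    intro w
    rw [e, ← Module.End.mul_apply, ← Module.End.mul_apply, ← map_mul, ← map_mul, mul_comm]
  rw [hcomm, hcomm, hv]

theorem isNewAt_of_mem_Vnew {M q : ℕ} [NeZero M] (hq : q.Prime) (hqM : q ∣ M)
    (g : CuspForm (Gamma0 M) 2) (hg : g.IsNormalizedEigenform) (h : g ∈ Vnew M q hqM) :
    g.IsNewAt q := by
  rw [mem_Vnew] at h
  have h1 : qCoeff (CuspForm.heckeULin 2 hqM (CuspForm.heckeULin 2 hqM g)) 1 = qCoeff g 1 := by
    rw [h]
  rw [qCoeff_heckeULin hq hqM, qCoeff_heckeULin hq hqM, hg.qCoeff_one, mul_one] at h1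
  have h2 := hg.qCoeff_prime_pow_of_dvd q 0 hq hqM
  rw [zero_add, zero_add, pow_one, pow_two, h1] at h2
  unfold CuspForm.IsNewAt
  rw [pow_two]
  exact h2.symm

end Fermat.Agent.S41.Norm
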