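import Fermat.Agent.S49.Algebra

set_option autoImplicit false

/-!
# S41 / T8c (B), abstract part : Deligne--Serre lifting inside a stable subspace
-/

namespace Fermat.Agent.S41.Norm

open Fermat.Agent.S49

/-- the surjection from the free algebra onto the polynomial ring. -/
noncomputable def toMv : FreeAlgebra ℤ ℕ →ₐ[ℤ] MvPolynomial ℕ ℤ := FreeAlgebra.lift ℤ MvPolynomial.X

theorem toMv_surjective : Function.Surjective toMv := by
  intro Q
  induction Q using MvPolynomial.induction_on with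
  | C a => exact ⟨algebraMap ℤ _ a, AlgHom.commutes _ _⟩
  | add p q hp hq =>
    obtain ⟨P, rfl⟩ := hp
    obtain ⟨P', rfl⟩ := hq
    exact ⟨P + P', map_add _ _ _⟩
  | mul_X p n hp =>
    obtain ⟨P, rfl⟩ := hp
    exact ⟨P * FreeAlgebra.ι ℤ n, by rw [map_mul, toMv, FreeAlgebra.lift_ι_apply]⟩

theorem aeval_toMv {A : Type*} [CommRing A] (t : ℕ → A) (P : FreeAlgebra ℤ ℕ) :
    MvPolynomial.aeval t (toMv P) = FreeAlgebra.lift ℤ t P := by
  have h : (MvPolynomial.aeval t).comp toMv = FreeAlgebra.lift ℤ t := by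
    apply FreeAlgebra.hom_ext
    funext ℓ
    simp only [Function.comp_apply, AlgHom.comp_apply, toMv, FreeAlgebra.lift_ι_apply,
      MvPolynomial.aeval_X]
  exact DFunLike.congr_fun h P

theorem map_lift {A B : Type*} [CommRing A] [CommRing B] (f : A →+* B) (t : ℕ → A)
    (P : FreeAlgebra ℤ ℕ) :
    f (FreeAlgebra.lift ℤ t P) = FreeAlgebra.lift ℤ (fun ℓ => f (t ℓ)) P := by
  have h : (f.toIntAlgHom).comp (FreeAlgebra.lift ℤ t) = FreeAlgebra.lift ℤ (fun ℓ => f (t ℓ)) := by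
    apply FreeAlgebra.hom_ext
    funext ℓ
    simp only [Function.comp_apply, AlgHom.comp_apply, FreeAlgebra.lift_ι_apply]
    rfl
  exact DFunLike.congr_fun h P

/-- **Deligne--Serre lifting inside a stable subspace.** -/
theorem exists_character_of_kill {T V : Type*} [CommRing T] [Module.Finite ℤ T] [AddCommGroup V]
    [Module ℂ V] (φ : T →+* Module.End ℂ V) (Vn : Submodule ℂ V)
    (hst : ∀ t, ∀ v ∈ Vn, φ t v ∈ Vn) (p : ℕ) [Fact p.Prime] (τ : ℕ → T) (a : ℕ → ZMod p)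
    (hkill : ∀ P : FreeAlgebra ℤ ℕ, (∀ v ∈ Vn, φ (FreeAlgebra.lift ℤ τ P) v = 0) →
      FreeAlgebra.lift ℤ a P = 0) :
    ∃ (v : V) (χ : T →+* ℂ) (χ' : T →+* integralClosure ℤ ℂ) (𝔪' : Ideal (integralClosure ℤ ℂ)),
      v ∈ Vn ∧ v ≠ 0 ∧ (∀ t, φ t v = χ t • v) ∧ (∀ t, (χ' t : ℂ) = χ t) ∧ 𝔪'.IsMaximal ∧
      (p : integralClosure ℤ ℂ) ∈ 𝔪' ∧
      ∀ (ℓ : ℕ) (b : ℤ), (b : ZMod p) = a ℓ → χ' (τ ℓ) - (b : integralClosure ℤ ℂ) ∈ 𝔪' := by
  classical
  let ψ : T →+* Module.End ℂ Vn :=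
    { toFun := fun t => (φ t).restrict (hst t)
      map_one' := by
        ext v
        simp [LinearMap.restrict_apply]
      map_mul' := fun s t => by
        ext v
        simp [LinearMap.restrict_apply]
      map_zero' := by
        ext v
        simp [LinearMap.restrict_apply]
      map_add' := fun s t => by
        ext v
        simp [LinearMap.restrict_apply] }
  have hψ : ∀ t (v : Vn), ((ψ t v : Vn) : V) = φ t v := fun t v => rfl
  have hφ' : Function.Injective (RingHom.kerLift ψ) := RingHom.kerLift_injective ψ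
  have hfin : Module.Finite ℤ (T ⧸ RingHom.ker ψ) :=
    Module.Finite.of_surjective (Ideal.Quotient.mkₐ ℤ (RingHom.ker ψ)).toLinearMap
      (Ideal.Quotient.mkₐ_surjective ℤ (RingHom.ker ψ))
  let mk : T →+* T ⧸ RingHom.ker ψ := Ideal.Quotient.mk _
  let θ : MvPolynomial ℕ ℤ →ₐ[ℤ] T ⧸ RingHom.ker ψ := MvPolynomial.aeval (fun ℓ => mk (τ ℓ))
  let lam : MvPolynomial ℕ ℤ →ₐ[ℤ] ZMod p := MvPolynomial.aeval a
  have hlam_surj : Function.Surjective lam.toRingHom := by
    intro z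
    obtain ⟨n, rfl⟩ := ZMod.intCast_surjective z
    exact ⟨MvPolynomial.C n, by simp [lam]⟩
  have hmax : (RingHom.ker lam.toRingHom).IsMaximal := RingHom.ker_isMaximal_of_surjective _ hlam_surj
  letI : Algebra (MvPolynomial ℕ ℤ) (T ⧸ RingHom.ker ψ) := θ.toRingHom.toAlgebra
  have halg : ∀ Q, algebraMap (MvPolynomial ℕ ℤ) (T ⧸ RingHom.ker ψ) Q = θ Q := fun Q => rfl
  have hint : Algebra.IsIntegral (MvPolynomial ℕ ℤ) (T ⧸ RingHom.ker ψ) := by
    have h0 : Algebra.IsIntegral ℤ (T ⧸ RingHom.ker ψ) := Algebra.IsIntegral.of_finite ℤ _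
    constructor
    intro x
    have hx : IsIntegral ℤ x := Algebra.IsIntegral.isIntegral x
    exact hx.tower_top
  have hker : RingHom.ker (algebraMap (MvPolynomial ℕ ℤ) (T ⧸ RingHom.ker ψ)) ≤
      RingHom.ker lam.toRingHom := by
    intro Q hQ
    obtain ⟨P, rfl⟩ := toMv_surjective Q
    rw [RingHom.mem_ker, halg] at hQ
    have h1 : θ (toMv P) = mk (FreeAlgebra.lift ℤ τ P) := by
      rw [map_lift]
      exact aeval_toMv _ P
    rw [h1] at hQ
    have h2 : FreeAlgebra.lift ℤ τ P ∈ RingHom.ker ψ := Ideal.Quotient.eq_zero_iff_mem.1 hQ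
    rw [RingHom.mem_ker] at h2
    have h3 : FreeAlgebra.lift ℤ a P = 0 := by
      apply hkill
      intro v hv
      have := hψ (FreeAlgebra.lift ℤ τ P) ⟨v, hv⟩
      rw [h2] at this
      exact this.symm
    rw [RingHom.mem_ker]
    exact (aeval_toMv a P).trans h3
  obtain ⟨Qm, hQmax, hQ⟩ :=
    Ideal.exists_ideal_over_maximal_of_isIntegral (RingHom.ker lam.toRingHom) hker
  haveI := hQmax.isPrime
  obtain ⟨v', χ, hv0, hχ, hkerχ⟩ := exists_eigen_character_ker_le (RingHom.kerLift ψ) hφ' Qm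
  obtain ⟨χ', 𝔪', h1, h2, h3⟩ := exists_maximal_over χ Qm hkerχ
  have hmemQ : ∀ Q : MvPolynomial ℕ ℤ, lam Q = 0 → θ Q ∈ Qm := by
    intro Q hQ0
    have : Q ∈ Qm.comap (algebraMap (MvPolynomial ℕ ℤ) (T ⧸ RingHom.ker ψ)) := by
      rw [hQ, RingHom.mem_ker]
      exact hQ0
    exact this
  refine ⟨v', χ.comp mk, χ'.comp mk, 𝔪', v'.2, ?_, ?_, fun t => h1 _, h2, ?_, ?_⟩
  · intro h0
    exact hv0 (Subtype.ext h0)
  · intro t
    have := hχ (mk t)
    have h4 : RingHom.kerLift ψ (mk t) = ψ t := RingHom.kerLift_mk ψ t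
    rw [h4] at this
    have h5 := congrArg (fun w : Vn => (w : V)) this
    exact h5
  · have h4 : θ (MvPolynomial.C (p : ℤ)) ∈ Qm := by
      apply hmemQ
      simp [lam]
    have h5 := h3 _ h4
    have h6 : θ (MvPolynomial.C (p : ℤ)) = ((p : ℕ) : T ⧸ RingHom.ker ψ) := by
      simp [θ]
    rw [h6, map_natCast] at h5
    exact h5
  · intro ℓ b hb
    have h4 : θ (MvPolynomial.X ℓ - MvPolynomial.C b) ∈ Qm := by
      apply hmemQ
      simp [lam, hb]
    have h5 := h3 _ h4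
    have h6 : θ (MvPolynomial.X ℓ - MvPolynomial.C b) = mk (τ ℓ) - ((b : ℤ) : T ⧸ RingHom.ker ψ) := by
      simp [θ]
    rw [h6, map_sub, map_intCast] at h5
    exact h5

end Fermat.Agent.S41.Norm
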