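import Fermat.Agent.S41.Norm.Char
import Fermat.Agent.S41.Norm.DS
import Fermat.Agent.NEW.EigS2
import Fermat.Agent.S23.HeckeFinite

set_option autoImplicit false

/-!
# S41 / T8c (B) : a system of eigenvalues mod `p` which is compatible with all `ℤ`-relations between the
good Hecke operators on a Hecke-stable subspace `Vn` of `S₂(Γ₀(M))` is the reduction of a normalised
eigenform lying in `Vn`.
-/

namespace Fermat.Agent.S41.Norm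

open CongruenceSubgroup ModularFormClass
open Fermat.Agent.S49 Fermat.Agent.NEW

/-- **(B)**. -/
theorem exists_eigenform_in (M : ℕ) [NeZero M] (p : ℕ) [Fact p.Prime] (G : ℕ → Prop) (a : ℕ → ℤ)
    (Vn : Submodule ℂ (CuspForm (Gamma0 M) 2))
    (hst : ∀ t : TT M, ∀ v ∈ Vn, phi M t v ∈ Vn)
    (hkill : ∀ P : FreeAlgebra ℤ ℕ,
      (∀ v ∈ Vn, FreeAlgebra.lift ℤ (S31.heckeFam M) (mask G P) v = 0) →
      FreeAlgebra.lift ℤ (fun ℓ => (a ℓ : ZMod p)) (mask G P) = 0) :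
    ∃ (g : CuspForm (Gamma0 M) 2) (𝔪' : Ideal (integralClosure ℤ ℂ)),
      g ∈ Vn ∧ g.IsNormalizedEigenform ∧ 𝔪'.IsMaximal ∧ (p : integralClosure ℤ ℂ) ∈ 𝔪' ∧
      ∀ ℓ : ℕ, ℓ.Prime → ¬ ℓ ∣ M → G ℓ → ∃ a' : integralClosure ℤ ℂ,
        (a' : ℂ) = qCoeff g ℓ ∧ a' - ((a ℓ : ℤ) : integralClosure ℤ ℂ) ∈ 𝔪' := by
  classical
  have hfin : Module.Finite ℤ (TT M) := S23.heckeAlgebra_finite M 2 ∅
  obtain ⟨v, χ, χ', 𝔪', hvV, hv0, hχ, hχ', hmax, hp, hcong⟩ :=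
    exists_character_of_kill (phi M) Vn hst p (tmask M G)
      (fun ℓ => if G ℓ then (a ℓ : ZMod p) else 0) (by
        intro P hP
        rw [← lift_mask]
        apply hkill
        intro v hv
        rw [← phi_lift_tmask]
        exact hP v hv)
  obtain ⟨c, g, hc, hg, hnorm, hgT, -⟩ := exists_normalized_of_character M v hv0 χ hχ
  refine ⟨g, 𝔪', ?_, hnorm, hmax, hp, ?_⟩
  · rw [hg]
    exact Vn.smul_mem c hvV
  · intro ℓ hℓ hℓM hG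
    refine ⟨χ' (tmask M G ℓ), ?_, hcong ℓ (a ℓ) (by rw [if_pos hG])⟩
    rw [hχ', hgT ℓ hℓ hℓM]
    unfold tmask
    rw [dif_pos ⟨hG, hℓ, hℓM⟩]

/-- **Top-level corollary** : (B) for `Vnew`, with `IsNewAt`. -/
theorem exists_newform (M q : ℕ) [NeZero M] (hq : q.Prime) (hqM : q ∣ M) (p : ℕ) [Fact p.Prime]
    (G : ℕ → Prop) (a : ℕ → ℤ)
    (hkill : ∀ P : FreeAlgebra ℤ ℕ,
      (∀ v ∈ Vnew M q hqM, FreeAlgebra.lift ℤ (S31.heckeFam M) (mask G P) v = 0) →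
      FreeAlgebra.lift ℤ (fun ℓ => (a ℓ : ZMod p)) (mask G P) = 0) :
    ∃ (g : CuspForm (Gamma0 M) 2) (𝔪' : Ideal (integralClosure ℤ ℂ)),
      g.IsNormalizedEigenform ∧ 𝔪'.IsMaximal ∧ (p : integralClosure ℤ ℂ) ∈ 𝔪' ∧
      (∀ ℓ : ℕ, ℓ.Prime → ¬ ℓ ∣ M → G ℓ → ∃ a' : integralClosure ℤ ℂ,
        (a' : ℂ) = qCoeff g ℓ ∧ a' - ((a ℓ : ℤ) : integralClosure ℤ ℂ) ∈ 𝔪') ∧
      g.IsNewAt q := by
  obtain ⟨g, 𝔪', hgV, hnorm, hmax, hp, hcong⟩ :=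
    exists_eigenform_in M p G a (Vnew M q hqM) (fun t v hv => Vnew_stable hq hqM t v hv) hkill
  exact ⟨g, 𝔪', hnorm, hmax, hp, hcong, isNewAt_of_mem_Vnew hq hqM g hnorm hgV⟩

end Fermat.Agent.S41.Norm
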